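import Mathlib

/-!
# Elementary lemmas for the 2-descent on `y² = x³ - p² x`, `p ≡ 3 mod 8`
-/

set_option autoImplicit false

namespace Fermat.Agent.Cor.Congruent

/-! ### Residues modulo `p` -/

section Residues

variable {p : ℕ} [Fact p.Prime]

/-- `2` is not a square modulo `p`. -/
theorem dvd_of_sq_sub_two (h8 : p % 8 = 3) {u v : ℤ} (h : (p : ℤ) ∣ u ^ 2 - 2 * v ^ 2) :
    (p : ℤ) ∣ u ∧ (p : ℤ) ∣ v := by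
  have hp2 : p ≠ 2 := by rintro rfl; norm_num at h8
  have h1 : (u : ZMod p) ^ 2 - 2 * (v : ZMod p) ^ 2 = 0 := by
    have := (ZMod.intCast_zmod_eq_zero_iff_dvd (u ^ 2 - 2 * v ^ 2) p).2 h
    push_cast at this
    exact this
  have hv : (v : ZMod p) = 0 := by
    by_contra hv
    have h2 : IsSquare (2 : ZMod p) := by
      refine ⟨(u : ZMod p) / v, ?_⟩
      field_simp
      linear_combination -h1
    rcases (ZMod.exists_sq_eq_two_iff hp2).1 h2 with h3 | h3 <;> omega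
  have hu : (u : ZMod p) = 0 := by
    rw [hv] at h1
    have : (u : ZMod p) ^ 2 = 0 := by linear_combination h1
    exact pow_eq_zero_iff two_ne_zero |>.1 this
  exact ⟨(ZMod.intCast_zmod_eq_zero_iff_dvd u p).1 hu, (ZMod.intCast_zmod_eq_zero_iff_dvd v p).1 hv⟩

/-- `-1` is not a square modulo `p`. -/
theorem dvd_of_sq_add_sq (h8 : p % 8 = 3) {u v : ℤ} (h : (p : ℤ) ∣ u ^ 2 + v ^ 2) :
    (p : ℤ) ∣ u ∧ (p : ℤ) ∣ v := by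
  have h1 : (u : ZMod p) ^ 2 + (v : ZMod p) ^ 2 = 0 := by
    have := (ZMod.intCast_zmod_eq_zero_iff_dvd (u ^ 2 + v ^ 2) p).2 h
    push_cast at this
    exact this
  have hv : (v : ZMod p) = 0 := by
    by_contra hv
    have h2 : IsSquare (-1 : ZMod p) := by
      refine ⟨(u : ZMod p) / v, ?_⟩
      field_simp
      linear_combination -h1
    have h3 := ZMod.exists_sq_eq_neg_one_iff.1 h2
    omega
  have hu : (u : ZMod p) = 0 := by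
    rw [hv] at h1
    have : (u : ZMod p) ^ 2 = 0 := by linear_combination h1
    exact pow_eq_zero_iff two_ne_zero |>.1 this
  exact ⟨(ZMod.intCast_zmod_eq_zero_iff_dvd u p).1 hu, (ZMod.intCast_zmod_eq_zero_iff_dvd v p).1 hv⟩

end Residues

/-! ### Infinite descent for homogeneous systems -/

/-- If `Z` can always be divided by `ℓ ≥ 2`, then `Z = 0`. -/
theorem eq_zero_of_descent {P : ℤ → ℤ → ℤ → ℤ → Prop} {ℓ : ℤ} (hℓ : 2 ≤ ℓ)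
    (h : ∀ U V W Z, P U V W Z → ∃ U' V' W' Z', Z = ℓ * Z' ∧ P U' V' W' Z') :
    ∀ U V W Z, P U V W Z → Z = 0 := by
  have key : ∀ n : ℕ, ∀ U V W Z, Z.natAbs = n → P U V W Z → Z = 0 := by
    intro n
    induction n using Nat.strong_induction_on with
    | _ n ih =>
      intro U V W Z hn hP
      obtain ⟨U', V', W', Z', hZ, hP'⟩ := h U V W Z hP
      by_contra hne
      have hZ' : Z' ≠ 0 := by
        rintro rfl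
        exact hne (by rw [hZ, mul_zero])
      have hlt : Z'.natAbs < n := by
        rw [← hn, hZ, Int.natAbs_mul]
        have h1 : 0 < Z'.natAbs := Int.natAbs_pos.2 hZ'
        have h2 : 2 ≤ ℓ.natAbs := by omega
        nlinarith
      exact hZ' (ih _ hlt U' V' W' Z' rfl hP')
  exact fun U V W Z hP => key _ U V W Z rfl hP

section Systems

variable {p : ℕ} [hp : Fact p.Prime]

include hp

theorem two_le_p : (2 : ℤ) ≤ (p : ℤ) := by exact_mod_cast hp.out.two_le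

theorem prime_int : Prime (p : ℤ) := Nat.prime_iff_prime_int.1 hp.out

theorem p_ne : (p : ℤ) ≠ 0 := prime_int.ne_zero

theorem not_dvd_two (h8 : p % 8 = 3) : ¬ (p : ℤ) ∣ 2 := by
  intro h
  have h1 : p ∣ 2 := by exact_mod_cast h
  have h2 := Nat.le_of_dvd (by norm_num) h1
  have h3 := hp.out.two_le
  omega

theorem dvd_of_dvd_sq {x : ℤ} (h : (p : ℤ) ∣ x ^ 2) : (p : ℤ) ∣ x := prime_int.dvd_of_dvd_pow h

theorem dvd_of_dvd_two_mul_sq (h8 : p % 8 = 3) {x : ℤ} (h : (p : ℤ) ∣ 2 * x ^ 2) : (p : ℤ) ∣ x :=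
  dvd_of_dvd_sq ((prime_int.dvd_or_dvd h).resolve_left (not_dvd_two h8))

/-- `(1, 2, 2)`. -/
theorem sys122 (h8 : p % 8 = 3) {U V W Z : ℤ} (h1 : U ^ 2 - 2 * V ^ 2 = p * Z ^ 2)
    (h2 : 2 * W ^ 2 - U ^ 2 = p * Z ^ 2) : Z = 0 := by
  refine eq_zero_of_descent (P := fun U V W Z => U ^ 2 - 2 * V ^ 2 = p * Z ^ 2 ∧
    2 * W ^ 2 - U ^ 2 = p * Z ^ 2) (two_le_p (p := p)) ?_ U V W Z ⟨h1, h2⟩
  rintro U V W Z ⟨h1, h2⟩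
  obtain ⟨⟨U', rfl⟩, ⟨V', rfl⟩⟩ := dvd_of_sq_sub_two h8 (⟨Z ^ 2, h1⟩ : (p : ℤ) ∣ U ^ 2 - 2 * V ^ 2)
  have hp0 : (p : ℤ) ≠ 0 := p_ne
  obtain ⟨Z', rfl⟩ := dvd_of_dvd_sq (⟨U' ^ 2 - 2 * V' ^ 2,
    mul_left_cancel₀ hp0 (by linear_combination -h1)⟩ : (p : ℤ) ∣ Z ^ 2)
  obtain ⟨W', rfl⟩ := dvd_of_dvd_two_mul_sq h8 (⟨p * U' ^ 2 + p * p * Z' ^ 2, by
    linear_combination h2⟩ : (p : ℤ) ∣ 2 * W ^ 2)
  refine ⟨U', V', W', Z', rfl, ?_, ?_⟩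
  · exact mul_left_cancel₀ (pow_ne_zero 2 hp0) (by linear_combination h1)
  · exact mul_left_cancel₀ (pow_ne_zero 2 hp0) (by linear_combination h2)

/-- `(1, p, p)`. -/
theorem sys1pp (h8 : p % 8 = 3) {U V W Z : ℤ} (h1 : U ^ 2 - p * V ^ 2 = p * Z ^ 2)
    (h2 : p * W ^ 2 - U ^ 2 = p * Z ^ 2) : Z = 0 := by
  refine eq_zero_of_descent (P := fun U V W Z => U ^ 2 - p * V ^ 2 = p * Z ^ 2 ∧
    p * W ^ 2 - U ^ 2 = p * Z ^ 2) (two_le_p (p := p)) ?_ U V W Z ⟨h1, h2⟩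
  rintro U V W Z ⟨h1, h2⟩
  have hp0 : (p : ℤ) ≠ 0 := p_ne
  obtain ⟨U', rfl⟩ := dvd_of_dvd_sq (⟨V ^ 2 + Z ^ 2, by linear_combination h1⟩ : (p : ℤ) ∣ U ^ 2)
  obtain ⟨⟨V', rfl⟩, ⟨Z', rfl⟩⟩ := dvd_of_sq_add_sq h8 (⟨U' ^ 2,
    mul_left_cancel₀ hp0 (by linear_combination -h1)⟩ : (p : ℤ) ∣ V ^ 2 + Z ^ 2)
  obtain ⟨W', rfl⟩ := dvd_of_dvd_sq (⟨U' ^ 2 + p * Z' ^ 2, mul_left_cancel₀ hp0 (by
    linear_combination h2)⟩ : (p : ℤ) ∣ W ^ 2)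
  refine ⟨U', V', W', Z', rfl, ?_, ?_⟩
  · exact mul_left_cancel₀ (pow_ne_zero 2 hp0) (by linear_combination h1)
  · exact mul_left_cancel₀ (pow_ne_zero 2 hp0) (by linear_combination h2)

/-- `(1, 2p, 2p)`. -/
theorem sys1qq (h8 : p % 8 = 3) {U V W Z : ℤ} (h1 : U ^ 2 - 2 * p * V ^ 2 = p * Z ^ 2)
    (h2 : 2 * p * W ^ 2 - U ^ 2 = p * Z ^ 2) : Z = 0 := by
  refine eq_zero_of_descent (P := fun U V W Z => U ^ 2 - 2 * p * V ^ 2 = p * Z ^ 2 ∧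
    2 * p * W ^ 2 - U ^ 2 = p * Z ^ 2) (two_le_p (p := p)) ?_ U V W Z ⟨h1, h2⟩
  rintro U V W Z ⟨h1, h2⟩
  have hp0 : (p : ℤ) ≠ 0 := p_ne
  obtain ⟨U', rfl⟩ := dvd_of_dvd_sq (⟨2 * V ^ 2 + Z ^ 2, by linear_combination h1⟩ :
    (p : ℤ) ∣ U ^ 2)
  obtain ⟨⟨Z', rfl⟩, ⟨W', rfl⟩⟩ := dvd_of_sq_sub_two h8 (⟨-U' ^ 2,
    mul_left_cancel₀ hp0 (by linear_combination -h2)⟩ : (p : ℤ) ∣ Z ^ 2 - 2 * W ^ 2)
  obtain ⟨V', rfl⟩ := dvd_of_dvd_two_mul_sq h8 (⟨U' ^ 2 - p * Z' ^ 2, mul_left_cancel₀ hp0 (by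
    linear_combination -h1)⟩ : (p : ℤ) ∣ 2 * V ^ 2)
  refine ⟨U', V', W', Z', rfl, ?_, ?_⟩
  · exact mul_left_cancel₀ (pow_ne_zero 2 hp0) (by linear_combination h1)
  · exact mul_left_cancel₀ (pow_ne_zero 2 hp0) (by linear_combination h2)

/-- `(2, 1, 2)`. -/
theorem sys212 (h8 : p % 8 = 3) {U V W Z : ℤ} (h1 : 2 * U ^ 2 - V ^ 2 = p * Z ^ 2)
    (h2 : 2 * W ^ 2 - 2 * U ^ 2 = p * Z ^ 2) : Z = 0 := by
  refine eq_zero_of_descent (P := fun U V W Z => 2 * U ^ 2 - V ^ 2 = p * Z ^ 2 ∧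
    2 * W ^ 2 - 2 * U ^ 2 = p * Z ^ 2) (two_le_p (p := p)) ?_ U V W Z ⟨h1, h2⟩
  rintro U V W Z ⟨h1, h2⟩
  have hp0 : (p : ℤ) ≠ 0 := p_ne
  obtain ⟨⟨V', rfl⟩, ⟨U', rfl⟩⟩ := dvd_of_sq_sub_two h8 (⟨-Z ^ 2, by linear_combination -h1⟩ :
    (p : ℤ) ∣ V ^ 2 - 2 * U ^ 2)
  obtain ⟨Z', rfl⟩ := dvd_of_dvd_sq (⟨2 * U' ^ 2 - V' ^ 2,
    mul_left_cancel₀ hp0 (by linear_combination -h1)⟩ : (p : ℤ) ∣ Z ^ 2)
  obtain ⟨W', rfl⟩ := dvd_of_dvd_two_mul_sq h8 (⟨2 * p * U' ^ 2 + p * p * Z' ^ 2, by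
    linear_combination h2⟩ : (p : ℤ) ∣ 2 * W ^ 2)
  refine ⟨U', V', W', Z', rfl, ?_, ?_⟩
  · exact mul_left_cancel₀ (pow_ne_zero 2 hp0) (by linear_combination h1)
  · exact mul_left_cancel₀ (pow_ne_zero 2 hp0) (by linear_combination h2)

/-- `(2, 2, 1)`. -/
theorem sys221 (h8 : p % 8 = 3) {U V W Z : ℤ} (h1 : 2 * U ^ 2 - 2 * V ^ 2 = p * Z ^ 2)
    (h2 : W ^ 2 - 2 * U ^ 2 = p * Z ^ 2) : Z = 0 := by
  refine eq_zero_of_descent (P := fun U V W Z => 2 * U ^ 2 - 2 * V ^ 2 = p * Z ^ 2 ∧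
    W ^ 2 - 2 * U ^ 2 = p * Z ^ 2) (two_le_p (p := p)) ?_ U V W Z ⟨h1, h2⟩
  rintro U V W Z ⟨h1, h2⟩
  have hp0 : (p : ℤ) ≠ 0 := p_ne
  obtain ⟨⟨W', rfl⟩, ⟨U', rfl⟩⟩ := dvd_of_sq_sub_two h8 (⟨Z ^ 2, h2⟩ :
    (p : ℤ) ∣ W ^ 2 - 2 * U ^ 2)
  obtain ⟨Z', rfl⟩ := dvd_of_dvd_sq (⟨W' ^ 2 - 2 * U' ^ 2,
    mul_left_cancel₀ hp0 (by linear_combination -h2)⟩ : (p : ℤ) ∣ Z ^ 2)
  obtain ⟨V', rfl⟩ := dvd_of_dvd_two_mul_sq h8 (⟨2 * p * U' ^ 2 - p * p * Z' ^ 2, by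
    linear_combination -h1⟩ : (p : ℤ) ∣ 2 * V ^ 2)
  refine ⟨U', V', W', Z', rfl, ?_, ?_⟩
  · exact mul_left_cancel₀ (pow_ne_zero 2 hp0) (by linear_combination h1)
  · exact mul_left_cancel₀ (pow_ne_zero 2 hp0) (by linear_combination h2)

/-- `(2, p, 2p)`. -/
theorem sys2pq (h8 : p % 8 = 3) {U V W Z : ℤ} (h1 : 2 * U ^ 2 - p * V ^ 2 = p * Z ^ 2)
    (h2 : 2 * p * W ^ 2 - 2 * U ^ 2 = p * Z ^ 2) : Z = 0 := by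
  refine eq_zero_of_descent (P := fun U V W Z => 2 * U ^ 2 - p * V ^ 2 = p * Z ^ 2 ∧
    2 * p * W ^ 2 - 2 * U ^ 2 = p * Z ^ 2) (two_le_p (p := p)) ?_ U V W Z ⟨h1, h2⟩
  rintro U V W Z ⟨h1, h2⟩
  have hp0 : (p : ℤ) ≠ 0 := p_ne
  obtain ⟨U', rfl⟩ := dvd_of_dvd_two_mul_sq h8 (⟨V ^ 2 + Z ^ 2, by linear_combination h1⟩ :
    (p : ℤ) ∣ 2 * U ^ 2)
  obtain ⟨⟨V', rfl⟩, ⟨Z', rfl⟩⟩ := dvd_of_sq_add_sq h8 (⟨2 * U' ^ 2,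
    mul_left_cancel₀ hp0 (by linear_combination -h1)⟩ : (p : ℤ) ∣ V ^ 2 + Z ^ 2)
  obtain ⟨W', rfl⟩ := dvd_of_dvd_two_mul_sq h8 (⟨2 * U' ^ 2 + p * Z' ^ 2, mul_left_cancel₀ hp0 (by
    linear_combination h2)⟩ : (p : ℤ) ∣ 2 * W ^ 2)
  refine ⟨U', V', W', Z', rfl, ?_, ?_⟩
  · exact mul_left_cancel₀ (pow_ne_zero 2 hp0) (by linear_combination h1)
  · exact mul_left_cancel₀ (pow_ne_zero 2 hp0) (by linear_combination h2)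

/-- `(2, 2p, p)`: here the obstruction is at `2`. -/
theorem sys2qp (h8 : p % 8 = 3) {U V W Z : ℤ} (h1 : 2 * U ^ 2 - 2 * p * V ^ 2 = p * Z ^ 2)
    (h2 : p * W ^ 2 - 2 * U ^ 2 = p * Z ^ 2) : Z = 0 := by
  have hp0 : (p : ℤ) ≠ 0 := p_ne
  have hodd : ¬ (2 : ℤ) ∣ p := by omega
  have h20 : (2 : ℤ) ≠ 0 := two_ne_zero
  have hpr : Prime (2 : ℤ) := Int.prime_two
  have hsq : ∀ {x : ℤ}, (2 : ℤ) ∣ x ^ 2 → (2 : ℤ) ∣ x := fun h => hpr.dvd_of_dvd_pow h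
  refine eq_zero_of_descent (P := fun U V W Z => 2 * U ^ 2 - 2 * p * V ^ 2 = p * Z ^ 2 ∧
    p * W ^ 2 - 2 * U ^ 2 = p * Z ^ 2) (le_refl 2) ?_ U V W Z ⟨h1, h2⟩
  rintro U V W Z ⟨h1, h2⟩
  obtain ⟨U₁, rfl⟩ := dvd_of_dvd_two_mul_sq h8 (⟨2 * V ^ 2 + Z ^ 2, by linear_combination h1⟩ :
    (p : ℤ) ∣ 2 * U ^ 2)
  have k1 : 2 * p * U₁ ^ 2 - 2 * V ^ 2 = Z ^ 2 :=
    mul_left_cancel₀ hp0 (by linear_combination h1)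
  have k2 : W ^ 2 - 2 * p * U₁ ^ 2 = Z ^ 2 :=
    mul_left_cancel₀ hp0 (by linear_combination h2)
  obtain ⟨Z', rfl⟩ := hsq (⟨p * U₁ ^ 2 - V ^ 2, by linear_combination -k1⟩ : (2 : ℤ) ∣ Z ^ 2)
  obtain ⟨W', rfl⟩ := hsq (⟨p * U₁ ^ 2 + 2 * Z' ^ 2, by linear_combination k2⟩ : (2 : ℤ) ∣ W ^ 2)
  have k3 : (2 : ℤ) ∣ p * U₁ ^ 2 := ⟨W' ^ 2 - Z' ^ 2,
    mul_left_cancel₀ h20 (by linear_combination -k2)⟩
  obtain ⟨U', rfl⟩ := hsq ((hpr.dvd_or_dvd k3).resolve_left hodd)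
  obtain ⟨V', rfl⟩ := hsq (⟨2 * p * U' ^ 2 - Z' ^ 2,
    mul_left_cancel₀ h20 (by linear_combination -k1)⟩ : (2 : ℤ) ∣ V ^ 2)
  refine ⟨p * U', V', W', Z', rfl, ?_, ?_⟩
  · exact mul_left_cancel₀ (pow_ne_zero 2 h20) (by linear_combination h1)
  · exact mul_left_cancel₀ (pow_ne_zero 2 h20) (by linear_combination h2)

end Systems

end Fermat.Agent.Cor.Congruent
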