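import Mathlib
import Fermat.Agent.Corollaries.Congruent.Elem

/-!
# The 2-descent on `y² = x³ - p² x`, `p ≡ 3 mod 8`
-/

set_option autoImplicit false

namespace Fermat.Agent.Cor.Congruent

/-! ### Valuations and squarefree parts of rational numbers -/

section Val

variable {q : ℕ} [hq : Fact q.Prime]

include hq

/-- If `abc` is a square and `a - b`, `a - c` have valuation `0`, the valuation of `a` is even. -/
theorem even_val {a b c d₁ d₂ t : ℚ} (ha : a ≠ 0) (hb : b ≠ 0) (hc : c ≠ 0)
    (hd₁ : d₁ ≠ 0) (hd₂ : d₂ ≠ 0) (hab : a - b = d₁) (hac : a - c = d₂)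
    (h₁ : padicValRat q d₁ = 0) (h₂ : padicValRat q d₂ = 0) (ht : a * b * c = t ^ 2) :
    Even (padicValRat q a) := by
  have ht0 : t ≠ 0 := by
    rintro rfl
    exact mul_ne_zero (mul_ne_zero ha hb) hc (by rw [ht]; ring)
  have h3 : padicValRat q a + padicValRat q b + padicValRat q c = 2 * padicValRat q t := by
    have := congrArg (padicValRat q) ht
    rw [padicValRat.mul (mul_ne_zero ha hb) hc, padicValRat.mul ha hb, padicValRat.pow] at this
    exact_mod_cast this
  have key : ∀ {b d : ℚ}, b ≠ 0 → d ≠ 0 → a - b = d → padicValRat q d = 0 →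
      (padicValRat q a < 0 → padicValRat q b = padicValRat q a) ∧
      (0 < padicValRat q a → padicValRat q b = 0) := by
    intro b d hb hd hab hvd
    have hbe : b = a + -d := by rw [← hab]; ring
    have hd' : -d ≠ 0 := neg_ne_zero.2 hd
    have hvd' : padicValRat q (-d) = 0 := by rw [padicValRat.neg]; exact hvd
    have hne : a + -d ≠ 0 := by rw [← hbe]; exact hb
    constructor
    · intro h
      rw [hbe]
      exact padicValRat.add_eq_of_lt hne ha hd' (by rw [hvd']; exact h)
    · intro h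
      rw [hbe, add_comm, ← hvd']
      exact padicValRat.add_eq_of_lt (by rw [add_comm]; exact hne) hd' ha (by rw [hvd']; exact h)
  rcases lt_trichotomy (padicValRat q a) 0 with h | h | h
  · rw [(key hb hd₁ hab h₁).1 h, (key hc hd₂ hac h₂).1 h] at h3
    exact ⟨padicValRat q t - padicValRat q a, by omega⟩
  · rw [h]
    exact ⟨0, rfl⟩
  · rw [(key hb hd₁ hab h₁).2 h, (key hc hd₂ hac h₂).2 h] at h3
    exact ⟨padicValRat q t, by omega⟩

/-- A prime at which `a s²` has even valuation does not divide the squarefree number `a`. -/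
theorem not_dvd_of_even {a : ℕ} {s w : ℚ} (ha : Squarefree a) (hs : s ≠ 0) (hw : w = a * s ^ 2)
    (he : Even (padicValRat q w)) : ¬ q ∣ a := by
  rintro ⟨m, rfl⟩
  have hqa : ¬ q ∣ m := by
    rintro ⟨k, rfl⟩
    have h1 := ha q ⟨k, by ring⟩
    exact hq.out.one_lt.ne' (Nat.isUnit_iff.1 h1)
  have hm : m ≠ 0 := by
    rintro rfl
    exact hqa (dvd_zero q)
  have hq0 : (q : ℚ) ≠ 0 := by exact_mod_cast hq.out.ne_zero
  have hm0 : (m : ℚ) ≠ 0 := by exact_mod_cast hm
  rw [hw, Nat.cast_mul, padicValRat.mul (mul_ne_zero hq0 hm0) (pow_ne_zero 2 hs),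
    padicValRat.mul hq0 hm0, padicValRat.pow, padicValRat.self hq.out.one_lt,
    padicValRat.of_nat, padicValNat.eq_zero_of_not_dvd hqa] at he
  obtain ⟨k, hk⟩ := he
  push_cast at hk
  omega

end Val

/-- The squarefree part of a positive rational number. -/
theorem exists_sqfree {w : ℚ} (hw : 0 < w) :
    ∃ (a : ℕ) (s : ℚ), Squarefree a ∧ s ≠ 0 ∧ w = a * s ^ 2 := by
  obtain ⟨a, b, hab, hsq⟩ := Nat.sq_mul_squarefree (w.num.natAbs * w.den)
  have hd : (w.den : ℚ) ≠ 0 := by exact_mod_cast w.den_ne_zero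
  have hn : ((w.num.natAbs : ℕ) : ℚ) = w.num := by
    rw [Nat.cast_natAbs, abs_of_nonneg (Rat.num_nonneg.2 hw.le)]
  have h1 : (b : ℚ) ^ 2 * a = w.num * w.den := by
    rw [← hn]
    exact_mod_cast hab
  have hw1 : w = w.num / w.den := (Rat.num_div_den w).symm
  have h2 : w = a * ((b : ℚ) / w.den) ^ 2 := by
    have h3 : (a : ℚ) * ((b : ℚ) / w.den) ^ 2 = ((b : ℚ) ^ 2 * a) / w.den ^ 2 := by
      field_simp
    rw [h3, h1]
    nth_rewrite 1 [hw1]
    field_simp
  refine ⟨a, b / w.den, hsq, ?_, h2⟩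
  intro h0
  rw [h0] at h2
  have : w = 0 := by rw [h2]; ring
  exact hw.ne' this

/-- Three rational numbers have a common denominator. -/
theorem exists_common (u v w : ℚ) : ∃ U V W n : ℤ, n ≠ 0 ∧ u * n = U ∧ v * n = V ∧ w * n = W := by
  have hu : (u.den : ℚ) ≠ 0 := by exact_mod_cast u.den_ne_zero
  have hv : (v.den : ℚ) ≠ 0 := by exact_mod_cast v.den_ne_zero
  have hw : (w.den : ℚ) ≠ 0 := by exact_mod_cast w.den_ne_zero
  refine ⟨u.num * v.den * w.den, v.num * u.den * w.den, w.num * u.den * v.den,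
    u.den * v.den * w.den, ?_, ?_, ?_, ?_⟩
  · exact_mod_cast mul_ne_zero (mul_ne_zero hu hv) hw
  · push_cast
    have := Rat.mul_den_eq_num u
    linear_combination (v.den * w.den : ℚ) * this
  · push_cast
    have := Rat.mul_den_eq_num v
    linear_combination (u.den * w.den : ℚ) * this
  · push_cast
    have := Rat.mul_den_eq_num w
    linear_combination (u.den * v.den : ℚ) * this

/-- A squarefree number divides `n ≠ 0` if its prime factors do. -/
theorem sqfree_dvd {a n : ℕ} (ha : Squarefree a) (hn : n ≠ 0)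
    (h : ∀ q : ℕ, q.Prime → q ∣ a → q ∣ n) : a ∣ n := by
  rw [← Nat.prod_primeFactors_of_squarefree ha]
  refine (Finset.prod_dvd_prod_of_subset _ _ _ fun q hq => ?_).trans (Nat.prod_primeFactors_dvd n)
  have h1 := Nat.mem_primeFactors.1 hq
  exact Nat.mem_primeFactors.2 ⟨h1.1, h q h1.1 h1.2.1, hn⟩

section Curve

variable {p : ℕ} [hp : Fact p.Prime]

/-- `x`, `x - p`, `x + p` are squares of rational numbers. -/
def Tri (p : ℕ) (x : ℚ) : Prop := ∃ r₁ r₂ r₃ : ℚ, x = r₁ ^ 2 ∧ x - p = r₂ ^ 2 ∧ x + p = r₃ ^ 2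

include hp

theorem val_p {q : ℕ} [Fact q.Prime] (hqp : q ≠ p) : padicValRat q (p : ℚ) = 0 := by
  rw [padicValRat.of_nat, padicValNat_primes hqp]
  rfl

theorem val_two_p {q : ℕ} [Fact q.Prime] (hq2 : q ≠ 2) (hqp : q ≠ p) :
    padicValRat q (2 * p : ℚ) = 0 := by
  have h2 : Fact (Nat.Prime 2) := ⟨Nat.prime_two⟩
  have hp0 : (p : ℚ) ≠ 0 := by exact_mod_cast hp.out.ne_zero
  have h3 : padicValRat q ((2 : ℕ) : ℚ) = 0 := val_p hq2
  rw [padicValRat.mul two_ne_zero hp0, val_p hqp, add_zero]
  exact_mod_cast h3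

/-- **The 2-descent.** A point with `x > 0` and even valuation of `x` at `p` has trivial class. -/
theorem tri_of_pos (h8 : p % 8 = 3) {z t : ℚ} (ht : t ≠ 0)
    (h : t ^ 2 = z * (z - p) * (z + p)) (hz : 0 < z) (hv : Even (padicValRat p z)) :
    Tri p z := by
  have hp0 : (0 : ℚ) < p := by exact_mod_cast hp.out.pos
  have hzp : 0 < z + p := by linarith
  have hzm : 0 < z - p := by
    have h1 : 0 < z * (z + p) * (z - p) := by
      have h2 : z * (z + p) * (z - p) = t ^ 2 := by rw [h]; ring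
      rw [h2]
      positivity
    exact (mul_pos_iff_of_pos_left (mul_pos hz hzp)).1 h1
  obtain ⟨a, u, ha, hu, hzu⟩ := exists_sqfree hz
  obtain ⟨b, v, hb, hv0, hzv⟩ := exists_sqfree hzm
  have hpne : (p : ℚ) ≠ 0 := hp0.ne'
  -- the prime factors of `a` and `b`
  have hprod : z * (z - p) * (z + p) = t ^ 2 := h.symm
  have hqa : ∀ q : ℕ, q.Prime → q ∣ a → q ∣ 2 := by
    intro q hq hqa
    by_contra h2
    have : Fact q.Prime := ⟨hq⟩
    have hq2 : q ≠ 2 := by rintro rfl; exact h2 dvd_rfl
    by_cases hqp : q = p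
    · subst hqp
      exact not_dvd_of_even ha hu hzu hv hqa
    · refine not_dvd_of_even ha hu hzu ?_ hqa
      exact even_val (a := z) (b := z - p) (c := z + p) (d₁ := p) (d₂ := -p) hz.ne' hzm.ne'
        hzp.ne' hpne (neg_ne_zero.2 hpne) (by ring) (by ring) (val_p hqp)
        (by rw [padicValRat.neg]; exact val_p hqp) hprod
  have hqb : ∀ q : ℕ, q.Prime → q ∣ b → q ∣ 2 * p := by
    intro q hq hqb
    by_contra h2
    have : Fact q.Prime := ⟨hq⟩
    have hq2 : q ≠ 2 := by rintro rfl; exact h2 (dvd_mul_right 2 p)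
    have hqp : q ≠ p := by rintro rfl; exact h2 (dvd_mul_left q 2)
    refine not_dvd_of_even hb hv0 hzv ?_ hqb
    exact even_val (a := z - p) (b := z) (c := z + p) (d₁ := -p) (d₂ := -(2 * p)) hzm.ne' hz.ne'
      hzp.ne' (neg_ne_zero.2 hpne) (neg_ne_zero.2 (mul_ne_zero two_ne_zero hpne)) (by ring)
      (by ring) (by rw [padicValRat.neg]; exact val_p hqp)
      (by rw [padicValRat.neg]; exact val_two_p hq2 hqp) (by rw [← hprod]; ring)
  have ha2 : a ∣ 2 := sqfree_dvd ha two_ne_zero hqa
  have hb2 : b ∣ 2 * p := sqfree_dvd hb (mul_ne_zero two_ne_zero hp.out.ne_zero) hqb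
  have ha0 : (a : ℚ) ≠ 0 := by
    intro h0
    rw [h0, zero_mul] at hzu
    exact hz.ne' hzu
  have hb0 : (b : ℚ) ≠ 0 := by
    intro h0
    rw [h0, zero_mul] at hzv
    exact hzm.ne' hzv
  -- the third factor
  obtain ⟨w, hw⟩ : ∃ w : ℚ, z + p = a * b * w ^ 2 := by
    refine ⟨t / (a * b * u * v), ?_⟩
    have h1 : (a * u ^ 2) * (b * v ^ 2) * (z + p) = t ^ 2 := by rw [← hzu, ← hzv, h]
    field_simp
    linear_combination h1
  obtain ⟨U, V, W, n, hn, hU, hV, hW⟩ := exists_common u v w
  have E1 : (a : ℤ) * U ^ 2 - b * V ^ 2 = p * n ^ 2 := by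
    have h1 : (a : ℚ) * U ^ 2 - b * V ^ 2 = p * n ^ 2 := by
      rw [← hU, ← hV]
      linear_combination (n : ℚ) ^ 2 * (hzv - hzu)
    exact_mod_cast h1
  have E2 : (a : ℤ) * b * W ^ 2 - a * U ^ 2 = p * n ^ 2 := by
    have h1 : (a : ℚ) * b * W ^ 2 - a * U ^ 2 = p * n ^ 2 := by
      rw [← hU, ← hW]
      linear_combination (n : ℚ) ^ 2 * (hzu - hw)
    exact_mod_cast h1
  obtain ⟨k, l, hk, hl, rfl⟩ := (Nat.dvd_mul).1 hb2
  rcases (Nat.dvd_prime Nat.prime_two).1 ha2 with rfl | rfl
  · rcases (Nat.dvd_prime Nat.prime_two).1 hk with rfl | rfl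
    · rcases (Nat.dvd_prime hp.out).1 hl with rfl | hlp
      · refine ⟨u, v, w, ?_, ?_, ?_⟩
        · rw [hzu]; push_cast; ring
        · rw [hzv]; push_cast; ring
        · rw [hw]; push_cast; ring
      · exfalso
        rw [hlp] at E1 E2
        push_cast at E1 E2
        exact hn (sys1pp h8 (U := U) (V := V) (W := W) (by linear_combination E1)
          (by linear_combination E2))
    · rcases (Nat.dvd_prime hp.out).1 hl with rfl | hlp
      · exfalso
        push_cast at E1 E2
        exact hn (sys122 h8 (U := U) (V := V) (W := W) (by linear_combination E1)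
          (by linear_combination E2))
      · exfalso
        rw [hlp] at E1 E2
        push_cast at E1 E2
        exact hn (sys1qq h8 (U := U) (V := V) (W := W) (by linear_combination E1)
          (by linear_combination E2))
  · exfalso
    rcases (Nat.dvd_prime Nat.prime_two).1 hk with rfl | rfl
    · rcases (Nat.dvd_prime hp.out).1 hl with rfl | hlp
      · push_cast at E1 E2
        exact hn (sys212 h8 (U := U) (V := V) (W := W) (by linear_combination E1)
          (by linear_combination E2))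
      · rw [hlp] at E1 E2
        push_cast at E1 E2
        exact hn (sys2pq h8 (U := U) (V := V) (W := W) (by linear_combination E1)
          (by linear_combination E2))
    · rcases (Nat.dvd_prime hp.out).1 hl with rfl | hlp
      · push_cast at E1 E2
        exact hn (sys221 h8 (U := U) (V := V) (W := 2 * W) (by linear_combination E1)
          (by linear_combination E2))
      · rw [hlp] at E1 E2
        push_cast at E1 E2
        exact hn (sys2qp h8 (U := U) (V := V) (W := 2 * W) (by linear_combination E1)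
          (by linear_combination E2))

end Curve

end Fermat.Agent.Cor.Congruent
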