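import Mathlib
import Fermat.Agent.Corollaries.Congruent.Descent

/-!
# Primes `p ≡ 3 mod 8` are not congruent numbers

For a prime `p ≡ 3 mod 8` the elliptic curve `y² = x³ - p² x` has exactly four rational points,
and `p` is not the area of a right triangle with rational sides.
-/

set_option autoImplicit false

namespace Fermat.Agent.Cor.Congruent

variable {p : ℕ} [hp : Fact p.Prime]

include hp

theorem p_pos : (0 : ℚ) < p := by exact_mod_cast hp.out.pos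

/-- The abscissa of the double of the point with abscissa `z`. -/
noncomputable def dbl (p : ℕ) (z : ℚ) : ℚ := (z ^ 2 + p ^ 2) ^ 2 / (4 * (z * (z - p) * (z + p)))

/-- After a translation by a 2-torsion point the class is trivial (positive abscissa). -/
theorem exists_tri_pos (h8 : p % 8 = 3) {z t : ℚ} (ht : t ≠ 0)
    (h : t ^ 2 = z * (z - p) * (z + p)) (hz : 0 < z) :
    ∃ x : ℚ, Tri p x ∧ 0 < x ∧ x * (x - p) * (x + p) ≠ 0 ∧ dbl p x = dbl p z := by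
  have hp0 : (0 : ℚ) < p := p_pos
  have hprod : z * (z - p) * (z + p) ≠ 0 := by
    rw [← h]
    exact pow_ne_zero 2 ht
  have hzm : z - p ≠ 0 := fun h0 => hprod (by rw [h0]; ring)
  have hzp : z + p ≠ 0 := fun h0 => hprod (by rw [h0]; ring)
  have hzm' : 0 < z - p := by
    have h1 : 0 < z * (z + p) * (z - p) := by
      have h2 : z * (z + p) * (z - p) = t ^ 2 := by rw [h]; ring
      rw [h2]
      positivity
    exact (mul_pos_iff_of_pos_left (mul_pos hz (by linarith))).1 h1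
  by_cases hv : Even (padicValRat p z)
  · exact ⟨z, tri_of_pos h8 ht h hz hv, hz, hprod, rfl⟩
  · -- translate by `(p, 0)`
    set z' : ℚ := p * (z + p) / (z - p) with hz'
    set t' : ℚ := 2 * p ^ 2 * t / (z - p) ^ 2 with ht'
    have hz0 : z ≠ 0 := hz.ne'
    have hp0' : (p : ℚ) ≠ 0 := hp0.ne'
    have e1 : z' - p = 2 * p ^ 2 / (z - p) := by
      rw [hz']
      field_simp
      ring
    have e2 : z' + p = 2 * p * z / (z - p) := by
      rw [hz']
      field_simp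
      ring
    have h' : t' ^ 2 = z' * (z' - p) * (z' + p) := by
      rw [e1, e2, hz', ht']
      field_simp
      rw [h]
    have ht0' : t' ≠ 0 := by
      rw [ht']
      exact div_ne_zero (mul_ne_zero (mul_ne_zero two_ne_zero (pow_ne_zero 2 hp0')) ht)
        (pow_ne_zero 2 hzm)
    have hzpos' : 0 < z' := by
      rw [hz']
      exact div_pos (mul_pos hp0 (by linarith)) hzm'
    have hev : Even (padicValRat p z') := by
      -- `z z' = p (t / (z - p))²`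
      have h1 : z * z' = p * (t / (z - p)) ^ 2 := by
        rw [hz']
        field_simp
        rw [h]
        ring
      have h2 := congrArg (padicValRat p) h1
      rw [padicValRat.mul hz0 hzpos'.ne', padicValRat.mul hp0'
        (pow_ne_zero 2 (div_ne_zero ht hzm)), padicValRat.pow,
        padicValRat.self hp.out.one_lt] at h2
      rw [Int.not_even_iff_odd] at hv
      obtain ⟨k, hk⟩ := hv
      refine ⟨padicValRat p (t / (z - p)) - k, ?_⟩
      push_cast at h2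
      omega
    refine ⟨z', tri_of_pos h8 ht0' h' hzpos' hev, hzpos', ?_, ?_⟩
    · rw [← h']
      exact pow_ne_zero 2 ht0'
    · unfold dbl
      rw [← h', ← h]
      rw [hz', ht']
      field_simp
      ring

/-- After a translation by a 2-torsion point the class is trivial. -/
theorem exists_tri (h8 : p % 8 = 3) {z t : ℚ} (ht : t ≠ 0)
    (h : t ^ 2 = z * (z - p) * (z + p)) :
    ∃ x : ℚ, Tri p x ∧ 0 < x ∧ x * (x - p) * (x + p) ≠ 0 ∧ dbl p x = dbl p z := by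
  have hp0 : (0 : ℚ) < p := p_pos
  have hp0' : (p : ℚ) ≠ 0 := hp0.ne'
  have hprod : z * (z - p) * (z + p) ≠ 0 := by
    rw [← h]
    exact pow_ne_zero 2 ht
  have hz0 : z ≠ 0 := fun h0 => hprod (by rw [h0]; ring)
  rcases lt_or_gt_of_ne hz0 with hz | hz
  · have h' : (p ^ 2 * t / z ^ 2) ^ 2 = (-p ^ 2 / z) * (-p ^ 2 / z - p) * (-p ^ 2 / z + p) := by
      field_simp
      rw [h]
      ring
    obtain ⟨x, h1, h2, h3, h4⟩ := exists_tri_pos h8 (z := -p ^ 2 / z) (t := p ^ 2 * t / z ^ 2)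
      (div_ne_zero (mul_ne_zero (pow_ne_zero 2 hp0') ht) (pow_ne_zero 2 hz0)) h'
      (div_pos_of_neg_of_neg (by have := pow_pos hp0 2; linarith) hz)
    refine ⟨x, h1, h2, h3, h4.trans ?_⟩
    unfold dbl
    rw [← h', ← h]
    field_simp
    ring
  · exact exists_tri_pos h8 ht h hz

omit hp in
/-- Halving: a point with trivial class is a double. -/
theorem exists_half (hp0 : (p : ℚ) ≠ 0) {x : ℚ} (hx : Tri p x) :
    ∃ z t : ℚ, t ≠ 0 ∧ t ^ 2 = z * (z - p) * (z + p) ∧ dbl p z = x := by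
  obtain ⟨r₁, r₂, r₃, h1, h2, h3⟩ := hx
  have k12 : r₁ ^ 2 - r₂ ^ 2 = p := by rw [← h1, ← h2]; ring
  have k31 : r₃ ^ 2 - r₁ ^ 2 = p := by rw [← h1, ← h3]; ring
  have m12 : r₁ + r₂ ≠ 0 := by
    intro h0
    apply hp0
    rw [← k12]
    linear_combination (r₁ - r₂) * h0
  have m13 : r₁ + r₃ ≠ 0 := by
    intro h0
    apply hp0
    rw [← k31]
    linear_combination (r₃ - r₁) * h0
  have m23 : r₂ + r₃ ≠ 0 := by
    intro h0
    apply hp0
    have : 2 * (p : ℚ) = 0 := by linear_combination (r₃ - r₂) * h0 - k12 - k31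
    linarith
  have hzm : (r₁ + r₂) * (r₁ + r₃) - p = (r₂ + r₁) * (r₂ + r₃) := by
    linear_combination k12
  have hzp : (r₁ + r₂) * (r₁ + r₃) + p = (r₃ + r₁) * (r₃ + r₂) := by
    linear_combination -k31
  refine ⟨(r₁ + r₂) * (r₁ + r₃), (r₁ + r₂) * (r₁ + r₃) * (r₂ + r₃),
    mul_ne_zero (mul_ne_zero m12 m13) m23, ?_, ?_⟩
  · rw [hzm, hzp]
    ring
  · unfold dbl
    rw [hzm, hzp]
    have k : ((r₁ + r₂) * (r₁ + r₃)) ^ 2 + (p : ℚ) ^ 2 =
        2 * r₁ * ((r₁ + r₂) * (r₁ + r₃) * (r₂ + r₃)) := by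
      have : (p : ℚ) ^ 2 = (r₁ ^ 2 - r₂ ^ 2) * (r₃ ^ 2 - r₁ ^ 2) := by rw [k12, k31]; ring
      rw [this]
      ring
    rw [k, h1]
    have h4 : (r₁ + r₂) * (r₁ + r₃) * ((r₂ + r₁) * (r₂ + r₃)) * ((r₃ + r₁) * (r₃ + r₂)) =
        ((r₁ + r₂) * (r₁ + r₃) * (r₂ + r₃)) ^ 2 := by ring
    rw [h4]
    have h5 : (r₁ + r₂) * (r₁ + r₃) * (r₂ + r₃) ≠ 0 := mul_ne_zero (mul_ne_zero m12 m13) m23
    field_simp
    ring

omit hp in
theorem sq_mod_eight (x : ℤ) : x ^ 2 % 8 = 0 ∨ x ^ 2 % 8 = 1 ∨ x ^ 2 % 8 = 4 := by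
  have h : x % 8 = 0 ∨ x % 8 = 1 ∨ x % 8 = 2 ∨ x % 8 = 3 ∨ x % 8 = 4 ∨ x % 8 = 5 ∨ x % 8 = 6 ∨
    x % 8 = 7 := by omega
  rcases h with h | h | h | h | h | h | h | h <;> simp [sq, Int.mul_emod, h]

omit hp in
theorem sq_mod_eight_of_odd {x : ℤ} (hx : ¬ (2 : ℤ) ∣ x) : x ^ 2 % 8 = 1 := by
  have h : x % 8 = 1 ∨ x % 8 = 3 ∨ x % 8 = 5 ∨ x % 8 = 7 := by omega
  rcases h with h | h | h | h <;> simp [sq, Int.mul_emod, h]

/-- In lowest terms `x = (r / s)²` with `r` odd, `s` even, `p ∤ r`. -/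
theorem tri_num (h8 : p % 8 = 3) {x : ℚ} (hx : Tri p x) (hx0 : 0 < x) :
    ∃ r s : ℤ, r ≠ 0 ∧ s ≠ 0 ∧ IsCoprime r s ∧ x = ((r : ℚ) / s) ^ 2 ∧ x.num = r ^ 2 ∧
      ¬ (2 : ℤ) ∣ r ∧ (2 : ℤ) ∣ s ∧ ¬ (p : ℤ) ∣ r ∧ 0 < r ^ 2 - p * s ^ 2 := by
  obtain ⟨r₁, r₂, r₃, h1, h2, h3⟩ := hx
  set r : ℤ := r₁.num with hr
  set s : ℤ := (r₁.den : ℤ) with hs
  have hs0 : s ≠ 0 := by
    rw [hs]
    exact_mod_cast r₁.den_ne_zero
  have hsQ : (s : ℚ) ≠ 0 := by exact_mod_cast hs0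
  have hrs : r₁ = (r : ℚ) / s := by
    rw [hr, hs]
    push_cast
    exact (Rat.num_div_den r₁).symm
  have hr10 : r₁ ≠ 0 := by
    rintro h0
    rw [h0] at h1
    rw [h1] at hx0
    norm_num at hx0
  have hr0 : r ≠ 0 := Rat.num_ne_zero.2 hr10
  have hco : IsCoprime r s := by
    rw [Int.isCoprime_iff_gcd_eq_one, hr, hs]
    exact r₁.reduced
  have hnum : x.num = r ^ 2 := by
    rw [h1, Rat.num_pow]
  -- integral square roots
  have q2 : IsSquare (r ^ 2 - p * s ^ 2) := by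
    rw [← Rat.isSquare_intCast_iff]
    refine ⟨r₂ * s, ?_⟩
    push_cast
    have h4 : r₂ ^ 2 = ((r : ℚ) / s) ^ 2 - p := by rw [← h2, h1, hrs]
    have h5 : r₂ * s * (r₂ * s) = r₂ ^ 2 * s ^ 2 := by ring
    rw [h5, h4]
    field_simp
  have q3 : IsSquare (r ^ 2 + p * s ^ 2) := by
    rw [← Rat.isSquare_intCast_iff]
    refine ⟨r₃ * s, ?_⟩
    push_cast
    have h4 : r₃ ^ 2 = ((r : ℚ) / s) ^ 2 + p := by rw [← h3, h1, hrs]
    have h5 : r₃ * s * (r₃ * s) = r₃ ^ 2 * s ^ 2 := by ring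
    rw [h5, h4]
    field_simp
  obtain ⟨v, hv⟩ := q2
  obtain ⟨w, hw⟩ := q3
  have hs2 : (2 : ℤ) ∣ s := by
    by_contra hodd
    have g1 := sq_mod_eight r
    have g2 := sq_mod_eight v
    have g3 := sq_mod_eight w
    have g4 := sq_mod_eight_of_odd hodd
    have g5 : ((p : ℤ) * s ^ 2) % 8 = 3 := by
      rw [Int.mul_emod, g4]
      have : (p : ℤ) % 8 = 3 := by exact_mod_cast h8
      rw [this]
      norm_num
    rw [← sq] at hv hw
    omega
  have hr2 : ¬ (2 : ℤ) ∣ r := by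
    intro h4
    have h5 := hco.isUnit_of_dvd' h4 hs2
    rw [Int.isUnit_iff] at h5
    omega
  have hpr : ¬ (p : ℤ) ∣ r := by
    rintro hpr
    have h4 : (p : ℤ) ∣ v ^ 2 := by
      have : v ^ 2 = r ^ 2 - p * s ^ 2 := by rw [hv]; ring
      rw [this]
      exact dvd_sub (dvd_pow hpr two_ne_zero) (dvd_mul_right _ _)
    obtain ⟨v', rfl⟩ := dvd_of_dvd_sq h4
    obtain ⟨r', hr'⟩ := hpr
    have h5 : (p : ℤ) ∣ s ^ 2 := ⟨r' ^ 2 - v' ^ 2, mul_left_cancel₀ (p_ne (p := p)) (by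
      rw [hr'] at hv
      linear_combination -hv)⟩
    have h6 := hco.isUnit_of_dvd' ⟨r', hr'⟩ (dvd_of_dvd_sq h5)
    exact prime_int.not_isUnit h6
  refine ⟨r, s, hr0, hs0, hco, ?_, hnum, hr2, hs2, hpr, ?_⟩
  · rw [h1, hrs]
  · have h4 : 0 ≤ r ^ 2 - p * s ^ 2 := by rw [hv]; exact mul_self_nonneg v
    refine lt_of_le_of_ne h4 fun h5 => hpr ?_
    have h6 : r ^ 2 = p * s ^ 2 := by linarith
    exact dvd_of_dvd_sq ⟨s ^ 2, h6⟩

/-- The numerator grows under doubling. -/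
theorem num_lt_num_dbl (h8 : p % 8 = 3) {x : ℚ} (hx : Tri p x) (hx0 : 0 < x) :
    x.num < (dbl p x).num := by
  obtain ⟨r, s, hr0, hs0, hco, hxrs, hnum, hr2, hs2, hpr, hpos⟩ := tri_num h8 hx hx0
  have hp2 := two_le_p (p := p)
  have hr1 : 0 < r ^ 2 := by positivity
  have hs1 : 0 < s ^ 2 := by positivity
  set a : ℤ := r ^ 2 with ha
  set b : ℤ := s ^ 2 with hb
  have hrQ : (r : ℚ) ≠ 0 := by exact_mod_cast hr0
  have hsQ : (s : ℚ) ≠ 0 := by exact_mod_cast hs0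
  set N : ℤ := (a ^ 2 + p ^ 2 * b ^ 2) ^ 2 with hN
  set M : ℤ := 4 * (a * b * (a ^ 2 - p ^ 2 * b ^ 2)) with hM
  have hab : a ^ 2 - p ^ 2 * b ^ 2 = (r ^ 2 - p * s ^ 2) * (r ^ 2 + p * s ^ 2) := by
    rw [ha, hb]; ring
  have hpos2 : 0 < a ^ 2 - p ^ 2 * b ^ 2 := by
    rw [hab]
    exact mul_pos hpos (by positivity)
  have hMpos : 0 < M := by
    rw [hM]
    positivity
  -- coprimality
  have c1 : IsCoprime a b := hco.pow
  have c2 : IsCoprime a (p : ℤ) :=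
    (IsCoprime.symm ((prime_int (p := p)).coprime_iff_not_dvd.2 hpr)).pow_left
  have hpb : IsCoprime a (p ^ 2 * b ^ 2) := c2.pow_right.mul_right c1.pow_right
  have k1 : IsCoprime (a ^ 2 + p ^ 2 * b ^ 2) a := by
    have h1 : IsCoprime (p ^ 2 * b ^ 2) a := hpb.symm
    have h2 := h1.add_mul_left_left a
    rw [add_comm, ← sq] at h2
    exact h2
  have k2 : IsCoprime (a ^ 2 + p ^ 2 * b ^ 2) b := by
    have h1 : IsCoprime (a ^ 2) b := c1.pow_left
    have h2 := h1.add_mul_right_left (p ^ 2 * b)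
    have h3 : a ^ 2 + p ^ 2 * b * b = a ^ 2 + p ^ 2 * b ^ 2 := by ring
    rwa [h3] at h2
  have k3 : IsCoprime (a ^ 2 + p ^ 2 * b ^ 2) 2 := by
    refine IsCoprime.symm (Int.prime_two.coprime_iff_not_dvd.2 fun h => hr2 ?_)
    have h1 : (2 : ℤ) ∣ p ^ 2 * b ^ 2 :=
      Dvd.dvd.mul_left (dvd_pow (dvd_pow hs2 two_ne_zero) two_ne_zero) _
    have h2 : (2 : ℤ) ∣ a ^ 2 := (dvd_add_left h1).1 h
    exact Int.prime_two.dvd_of_dvd_pow (Int.prime_two.dvd_of_dvd_pow h2)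
  have k4 : IsCoprime (a ^ 2 + p ^ 2 * b ^ 2) (a ^ 2 - p ^ 2 * b ^ 2) := by
    have h1 : IsCoprime (a ^ 2 + p ^ 2 * b ^ 2) (2 * a ^ 2) := k3.mul_right k1.pow_right
    have h2 := h1.add_mul_left_right (-1)
    have h3 : 2 * a ^ 2 + (a ^ 2 + p ^ 2 * b ^ 2) * -1 = a ^ 2 - p ^ 2 * b ^ 2 := by ring
    rwa [h3] at h2
  have k5 : IsCoprime N M := by
    rw [hN, hM]
    refine IsCoprime.pow_left (IsCoprime.mul_right ?_ ((k1.mul_right k2).mul_right k4))
    have : (4 : ℤ) = 2 ^ 2 := by norm_num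
    rw [this]
    exact k3.pow_right
  have hdbl : dbl p x = (N : ℚ) / M := by
    have hbQ : (b : ℚ) ≠ 0 := by exact_mod_cast hs1.ne'
    have haQ : (a : ℚ) ≠ 0 := by exact_mod_cast hr1.ne'
    have hcQ : ((a : ℚ) ^ 2 - p ^ 2 * b ^ 2) ≠ 0 := by exact_mod_cast hpos2.ne'
    have hz : x = (a : ℚ) / b := by
      rw [hxrs, ha, hb]
      push_cast
      rw [div_pow]
    have e1 : x ^ 2 + (p : ℚ) ^ 2 = (a ^ 2 + p ^ 2 * b ^ 2) / b ^ 2 := by
      rw [hz]
      field_simp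
    have e2 : x * (x - p) * (x + p) = a * (a ^ 2 - p ^ 2 * b ^ 2) / b ^ 3 := by
      rw [hz]
      field_simp
      ring
    unfold dbl
    rw [e1, e2, hN, hM]
    push_cast
    field_simp
  have hnumd : (dbl p x).num = N := by
    rw [hdbl]
    exact Rat.num_div_eq_of_coprime hMpos (Int.isCoprime_iff_nat_coprime.1 k5)
  rw [hnumd, hnum]
  have h1 : 1 ≤ p ^ 2 * b ^ 2 := by
    have : 0 < (p : ℤ) ^ 2 * b ^ 2 := by positivity
    exact this
  have h2 : a < a ^ 2 + p ^ 2 * b ^ 2 := by nlinarith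
  have h3 : a ^ 2 + p ^ 2 * b ^ 2 ≤ (a ^ 2 + p ^ 2 * b ^ 2) ^ 2 := by nlinarith
  rw [hN]
  linarith

/-- **No point has trivial class**: infinite descent. -/
theorem not_tri (h8 : p % 8 = 3) (x : ℚ) (hx0 : 0 < x) : ¬ Tri p x := by
  have key : ∀ n : ℕ, ∀ x : ℚ, x.num.natAbs = n → 0 < x → ¬ Tri p x := by
    intro n
    induction n using Nat.strong_induction_on with
    | _ n ih =>
      intro x hn hx0 hx
      obtain ⟨z, t, ht, h, hzx⟩ := exists_half (p_pos (p := p)).ne' hx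
      obtain ⟨x', hx', hx0', -, hd⟩ := exists_tri h8 ht h
      have h1 := num_lt_num_dbl h8 hx' hx0'
      rw [hd, hzx] at h1
      have h2 : 0 < x'.num := Rat.num_pos.2 hx0'
      refine ih x'.num.natAbs ?_ x' rfl hx0' hx'
      omega
  exact key _ x rfl hx0

/-- **The rational points of `y² = x³ - p² x`** for a prime `p ≡ 3 mod 8`: `y = 0`. -/
theorem y_eq_zero (h8 : p % 8 = 3) {x y : ℚ} (h : y ^ 2 = x ^ 3 - p ^ 2 * x) : y = 0 := by
  by_contra hy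
  obtain ⟨x', hx', hx0', -, -⟩ := exists_tri h8 (z := x) hy (by rw [h]; ring)
  exact not_tri h8 x' hx0' hx'

end Fermat.Agent.Cor.Congruent
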