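import Mathlib
import Fermat.Agent.Corollaries.Congruent.Main

/-!
# Congruent numbers: the group of rational points of `y² = x³ - p² x`, `p ≡ 3 mod 8`
-/

set_option autoImplicit false

namespace Fermat.Agent.Cor.Congruent

open WeierstrassCurve

/-- **The rational points of `y² = x³ - p² x`** for a prime `p ≡ 3 mod 8`. -/
theorem points {p : ℕ} (hp : p.Prime) (h8 : p % 8 = 3) {x y : ℚ}
    (h : y ^ 2 = x ^ 3 - (p : ℚ) ^ 2 * x) : y = 0 ∧ (x = 0 ∨ x = p ∨ x = -p) := by
  have : Fact p.Prime := ⟨hp⟩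
  have hy := y_eq_zero h8 h
  refine ⟨hy, ?_⟩
  rw [hy] at h
  have h1 : x * ((x - p) * (x + p)) = 0 := by linear_combination -h
  rcases mul_eq_zero.1 h1 with h2 | h2
  · exact Or.inl h2
  · rcases mul_eq_zero.1 h2 with h3 | h3
    · exact Or.inr (Or.inl (by linear_combination h3))
    · exact Or.inr (Or.inr (by linear_combination h3))

/-- A prime is not the square of a rational number. -/
theorem prime_ne_sq {p : ℕ} (hp : p.Prime) (r : ℚ) : (p : ℚ) ≠ r ^ 2 := by
  intro h
  have : Fact p.Prime := ⟨hp⟩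
  have h1 := congrArg (padicValRat p) h
  rw [padicValRat.self hp.one_lt, padicValRat.pow] at h1
  push_cast at h1
  omega

/-- **A prime `p ≡ 3 mod 8` is not a congruent number**: it is not the area of a right triangle
with rational sides. -/
theorem not_congruent {p : ℕ} (hp : p.Prime) (h8 : p % 8 = 3) :
    ¬ ∃ a b c : ℚ, a ^ 2 + b ^ 2 = c ^ 2 ∧ a * b / 2 = p := by
  rintro ⟨a, b, c, h1, h2⟩
  have hp0 : (0 : ℚ) < p := by exact_mod_cast hp.pos
  have hab : a * b = 2 * p := by linear_combination 2 * h2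
  have hy := (points hp h8 (x := (c / 2) ^ 2) (y := c * (a - b) * (a + b) / 8) (by
    have e1 : (c / 2) ^ 2 - (p : ℚ) = ((a - b) / 2) ^ 2 := by
      linear_combination (-1 / 4 : ℚ) * h1 + (1 / 2 : ℚ) * hab
    have e2 : (c / 2) ^ 2 + (p : ℚ) = ((a + b) / 2) ^ 2 := by
      linear_combination (-1 / 4 : ℚ) * h1 - (1 / 2 : ℚ) * hab
    have e3 : ((c / 2) ^ 2) ^ 3 - (p : ℚ) ^ 2 * (c / 2) ^ 2 =
        (c / 2) ^ 2 * ((c / 2) ^ 2 - p) * ((c / 2) ^ 2 + p) := by ring
    rw [e3, e1, e2]
    ring)).1
  have h3 : c * (a - b) * (a + b) = 0 := by linear_combination 8 * hy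
  rcases mul_eq_zero.1 h3 with h4 | h4
  · rcases mul_eq_zero.1 h4 with h5 | h5
    · rw [h5] at h1
      have ha : a = 0 := by nlinarith [sq_nonneg a, sq_nonneg b]
      rw [ha] at hab
      linarith
    · have hb : b = a := by linear_combination -h5
      rw [hb] at h1 hab
      exact prime_ne_sq hp (c / 2) (by linear_combination (1 / 4 : ℚ) * h1 - (1 / 2 : ℚ) * hab)
  · have hb : b = -a := by linear_combination h4
    rw [hb] at hab
    nlinarith [sq_nonneg a]

/-- There is no right triangle with rational sides and area `3`. -/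
theorem three_not_congruent : ¬ ∃ a b c : ℚ, a ^ 2 + b ^ 2 = c ^ 2 ∧ a * b / 2 = 3 := by
  have h := not_congruent Nat.prime_three (by norm_num)
  exact_mod_cast h

/-! ### The group of rational points -/

/-- The curve `y² = x³ - n² x` over `ℚ`. -/
def curve (n : ℕ) : WeierstrassCurve ℚ := ⟨0, 0, 0, -(n : ℚ) ^ 2, 0⟩

theorem equation_iff' {n : ℕ} {x y : ℚ} :
    (curve n).toAffine.Equation x y ↔ y ^ 2 = x ^ 3 - (n : ℚ) ^ 2 * x := by
  rw [Affine.equation_iff]
  simp only [curve]
  constructor <;> intro h <;> linear_combination h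

theorem Δ_ne_zero {n : ℕ} (hn : n ≠ 0) : (curve n).Δ ≠ 0 := by
  have h : (curve n).Δ = 64 * (n : ℚ) ^ 6 := by
    simp only [curve, WeierstrassCurve.Δ, b₂, b₄, b₆, b₈]
    ring
  rw [h]
  have : (n : ℚ) ≠ 0 := by exact_mod_cast hn
  positivity

/-- A point of the curve from a solution of the equation. -/
def pt {n : ℕ} (hn : n ≠ 0) (x y : ℚ) (h : y ^ 2 = x ^ 3 - (n : ℚ) ^ 2 * x) :
    (curve n).toAffine.Point :=
  Affine.Point.some x y
    ((Affine.equation_iff_nonsingular_of_Δ_ne_zero (Δ_ne_zero hn)).1 (equation_iff'.2 h))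

/-- **The group of rational points of `y² = x³ - p² x`** for a prime `p ≡ 3 mod 8` has exactly
four elements. -/
theorem card_points {p : ℕ} (hp : p.Prime) (h8 : p % 8 = 3) :
    Nat.card (curve p).toAffine.Point = 4 := by
  classical
  have hp0 : (p : ℚ) ≠ 0 := by exact_mod_cast hp.ne_zero
  let S : Finset (curve p).toAffine.Point :=
    {0, pt hp.ne_zero 0 0 (by ring), pt hp.ne_zero p 0 (by ring),
      pt hp.ne_zero (-p) 0 (by ring)}
  have hS : S.card = 4 := by
    have hpp : (p : ℚ) ≠ -p := by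
      intro h
      exact hp0 (by linarith)
    have hn0 : (-(p : ℚ)) ≠ 0 := neg_ne_zero.2 hp0
    simp only [S, pt]
    rw [Finset.card_insert_of_notMem, Finset.card_insert_of_notMem,
      Finset.card_insert_of_notMem, Finset.card_singleton]
    · simp [hpp]
    · simp [hp0.symm, hn0.symm]
    · simp
  have huniv : ∀ P : (curve p).toAffine.Point, P ∈ S := by
    intro P
    cases P with
    | zero => exact Finset.mem_insert_self _ _
    | some x y h =>
      obtain ⟨hy, hx⟩ := points hp h8 (equation_iff'.1 h.1)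
      subst hy
      simp only [S, pt, Finset.mem_insert, Finset.mem_singleton]
      rcases hx with rfl | rfl | rfl
      · exact Or.inr (Or.inl rfl)
      · exact Or.inr (Or.inr (Or.inl rfl))
      · exact Or.inr (Or.inr (Or.inr rfl))
  have h1 : Nat.card (curve p).toAffine.Point = Nat.card S :=
    Nat.card_congr ⟨fun P => ⟨P, huniv P⟩, fun P => P.1, fun _ => rfl, fun _ => rfl⟩
  rw [h1, Nat.card_eq_finsetCard, hS]

/-- Every rational point of `y² = x³ - p² x`, `p ≡ 3 mod 8`, is killed by `2`. -/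
theorem add_self_eq_zero {p : ℕ} (hp : p.Prime) (h8 : p % 8 = 3)
    (P : (curve p).toAffine.Point) : P + P = 0 := by
  cases P with
  | zero => exact add_zero (0 : (curve p).toAffine.Point)
  | some x y h =>
    obtain ⟨hy, -⟩ := points hp h8 (equation_iff'.1 h.1)
    subst hy
    refine Affine.Point.add_self_of_Y_eq ?_
    simp [Affine.negY, curve]

end Fermat.Agent.Cor.Congruent
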